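/-
W-A programme (S32), brick [S32-ABS] (helper6), part 1: GENERIC ALGEBRA (Mathlib only).

* `s32a_ar`        : Artin–Rees for an injective linear map `ι : N → P` into a finite module over a
  Noetherian ring and a principal ideal `(ϖ)`: there is `c₀` with
  `ι x ∈ ϖ^(k+c₀) P ⇒ x ∈ ϖ^k N`;
* `s32a_pow_mem`   : in a local ring `T`, an ideal `J` of finite index contains a power of every
  element of the maximal ideal;
* `s32a_mem_of_coords`, `s32a_coords_of_span`, `s32a_span_orbit` : coordinates and spanning for a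
  family of endomorphisms whose span is all of `End`.
-/
import Mathlib

set_option autoImplicit false
set_option linter.unusedSectionVars false

namespace Fermat.Agent.Lib.S32

open IsLocalRing

section AR

variable {R : Type*} [CommRing R] [IsNoetherianRing R]
  {N : Type*} [AddCommGroup N] [Module R N]
  {P : Type*} [AddCommGroup P] [Module R P] [Module.Finite R P]

/-- Artin–Rees for an injective map and a principal ideal. -/
theorem s32a_ar (ι : N →ₗ[R] P) (hι : Function.Injective ι) (ϖ : R) :
    ∃ c₀ : ℕ, ∀ (k : ℕ) (x : N), (∃ y : P, ι x = ϖ ^ (k + c₀) • y) →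
      ∃ x' : N, x = ϖ ^ k • x' := by
  obtain ⟨c₀, hc₀⟩ := Ideal.exists_pow_inf_eq_pow_smul (Ideal.span {ϖ}) (LinearMap.range ι)
  refine ⟨c₀, fun k x hy => ?_⟩
  obtain ⟨y, hy⟩ := hy
  have h1 : ι x ∈ Ideal.span {ϖ} ^ (k + c₀) • (⊤ : Submodule R P) ⊓ LinearMap.range ι := by
    refine ⟨?_, ⟨x, rfl⟩⟩
    rw [hy]
    exact Submodule.smul_mem_smul (Ideal.pow_mem_pow (Ideal.mem_span_singleton_self ϖ) _)
      Submodule.mem_top
  rw [hc₀ (k + c₀) (Nat.le_add_left _ _), Nat.add_sub_cancel] at h1
  have h2 : Ideal.span {ϖ} ^ k • (Ideal.span {ϖ} ^ c₀ • (⊤ : Submodule R P) ⊓ LinearMap.range ι) ≤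
      Ideal.span {ϖ} ^ k • LinearMap.range ι := Submodule.smul_mono le_rfl inf_le_right
  have h3 := h2 h1
  rw [Ideal.span_singleton_pow, Submodule.ideal_span_singleton_smul] at h3
  obtain ⟨z, hz1, hz⟩ := (Submodule.mem_smul_pointwise_iff_exists _ _ _).mp h3
  obtain ⟨x', rfl⟩ := hz1
  refine ⟨x', hι ?_⟩
  rw [map_smul, hz]

end AR

section PowMem

variable {T : Type*} [CommRing T] [IsLocalRing T]

/-- An ideal of finite index of a local ring contains a power of every non-unit. -/
theorem s32a_pow_mem (J : Ideal T) [Finite (T ⧸ J)] (x : T) (hx : x ∈ maximalIdeal T) :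
    ∃ m : ℕ, x ^ m ∈ J := by
  obtain ⟨i, j, hij, h⟩ :=
    Finite.exists_ne_map_eq_of_infinite (fun k : ℕ => (Ideal.Quotient.mk J x) ^ k)
  wlog hlt : i < j generalizing i j
  · exact this j i hij.symm h.symm (lt_of_le_of_ne (not_lt.mp hlt) hij.symm)
  refine ⟨i, ?_⟩
  have h1 : x ^ i - x ^ j ∈ J := by
    rw [← Ideal.Quotient.eq, map_pow, map_pow]
    exact h
  have h2 : x ^ i - x ^ j = x ^ i * (1 - x ^ (j - i)) := by
    rw [mul_sub, mul_one, ← pow_add, Nat.add_sub_cancel' hlt.le]
  have h3 : IsUnit (1 - x ^ (j - i)) := by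
    have hm : x ^ (j - i) ∈ maximalIdeal T :=
      Ideal.pow_mem_of_mem _ hx _ (Nat.sub_pos_of_lt hlt)
    by_contra hnu
    have h4 := Ideal.add_mem _ ((mem_maximalIdeal _).mpr hnu) hm
    rw [sub_add_cancel] at h4
    exact (maximalIdeal.isMaximal T).ne_top ((Ideal.eq_top_iff_one _).mpr h4)
  obtain ⟨uu, huu⟩ := h3
  rw [h2, ← huu] at h1
  have h5 := J.mul_mem_right ((uu⁻¹ : Tˣ) : T) h1
  rwa [mul_assoc, Units.mul_inv, mul_one] at h5

end PowMem

section TSide

variable {T : Type*} [CommRing T] {V : Type*} [AddCommGroup V] [Module T V] {G : Type*}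
  {ι : Type*} [Fintype ι] [DecidableEq ι]

/-- A vector all of whose coordinates lie in `J` lies in `J V`. -/
theorem s32a_mem_of_coords (b : Module.Basis ι T V) (J : Ideal T) (v : V)
    (h : ∀ i, b.repr v i ∈ J) : v ∈ J • (⊤ : Submodule T V) := by
  rw [← b.sum_repr v]
  exact Submodule.sum_mem _ fun i _ => Submodule.smul_mem_smul (h i) Submodule.mem_top

/-- If the `σ g` span `End` and the `k`-th coordinate of every `σ g u` lies in `J`, then all
coordinates of `u` lie in `J`. -/
theorem s32a_coords_of_span (σ : G → Module.End T V)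
    (hspan : Submodule.span T (Set.range σ) = ⊤) (b : Module.Basis ι T V) (k : ι) (J : Ideal T)
    (u : V) (h : ∀ g, b.repr (σ g u) k ∈ J) : ∀ i, b.repr u i ∈ J := by
  have hall : ∀ X ∈ Submodule.span T (Set.range σ), b.repr (X u) k ∈ J := by
    intro X hX
    induction hX using Submodule.span_induction with
    | mem x hx =>
      obtain ⟨g, rfl⟩ := hx
      exact h g
    | zero =>
      rw [LinearMap.zero_apply, map_zero, Finsupp.zero_apply]
      exact J.zero_mem
    | add x y _ _ hx hy =>
      rw [LinearMap.add_apply, map_add, Finsupp.add_apply]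
      exact J.add_mem hx hy
    | smul c x _ hx =>
      rw [LinearMap.smul_apply, map_smul, Finsupp.smul_apply, smul_eq_mul]
      exact J.mul_mem_left _ hx
  intro i
  have h1 := hall ((b.coord i).smulRight (b k)) (by rw [hspan]; trivial)
  rw [LinearMap.smulRight_apply, map_smul, Finsupp.smul_apply, b.repr_self,
    Finsupp.single_eq_same, smul_eq_mul, mul_one, Module.Basis.coord_apply] at h1
  exact h1

/-- If the `σ g` span `End`, the orbit of a basis vector spans `V`. -/
theorem s32a_span_orbit (σ : G → Module.End T V)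
    (hspan : Submodule.span T (Set.range σ) = ⊤) (b : Module.Basis ι T V) (k : ι) :
    Submodule.span T (Set.range fun g => σ g (b k)) = ⊤ := by
  rw [eq_top_iff]
  intro v _
  have hall : ∀ X ∈ Submodule.span T (Set.range σ),
      X (b k) ∈ Submodule.span T (Set.range fun g => σ g (b k)) := by
    intro X hX
    induction hX using Submodule.span_induction with
    | mem x hx =>
      obtain ⟨g, rfl⟩ := hx
      exact Submodule.subset_span ⟨g, rfl⟩
    | zero =>
      rw [LinearMap.zero_apply]
      exact Submodule.zero_mem _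
    | add x y _ _ hx hy =>
      rw [LinearMap.add_apply]
      exact Submodule.add_mem _ hx hy
    | smul c x _ hx =>
      rw [LinearMap.smul_apply]
      exact Submodule.smul_mem _ _ hx
  have h1 := hall ((b.coord k).smulRight v) (by rw [hspan]; trivial)
  rwa [LinearMap.smulRight_apply, Module.Basis.coord_apply, b.repr_self, Finsupp.single_eq_same,
    one_smul] at h1

end TSide

end Fermat.Agent.Lib.S32
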