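/-
W-A programme (S32), brick [S32-ABS] (helper6), part 2: THE COEFFICIENT MODULE (Mathlib only).

`F = G →₀ (Fin n → 𝔸)` with `G` acting by left translation (`Finsupp.comapDistribMulAction`), and
the three additive maps
* `s32a_aW ρ y f i j   = Σ_g f(g)_i • ρ g (y j)`          (to the `𝔸[G]`-module `W`),
* `s32a_u π σ v₀ f i   = Σ_g π(f(g)_i) • σ g v₀`          (to the `T[G]`-module `V`),
* `s32a_c DD h f i     = Σ_g f(g)_i * DD (h g)`           (to `𝔸`),
with their equivariance and the two comparison formulas `s32a_c_spec`, `s32a_c_pi`, and the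
surjectivity modulo `J` of `f ↦ Σ_i x_i • u_i(f)` (`s32a_b_onto`).
-/
import Mathlib

set_option autoImplicit false
set_option linter.unusedSectionVars false

namespace Fermat.Agent.Lib.S32

noncomputable section

attribute [local instance] Finsupp.comapDistribMulAction

variable {𝔸 : Type*} [CommRing 𝔸] {W : Type*} [AddCommGroup W] [Module 𝔸 W]
  {G : Type*} [Group G]
  {T : Type*} [CommRing T] {V : Type*} [AddCommGroup V] [Module T V] {n s : ℕ}

/-- The map to `W`. -/
def s32a_aW (ρ : G →* Module.End 𝔸 W) (y : Fin s → W) :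
    (G →₀ (Fin n → 𝔸)) →+ (Fin n → Fin s → W) :=
  Finsupp.liftAddHom fun g =>
    { toFun := fun c i j => c i • ρ g (y j)
      map_zero' := by
        funext i j
        simp
      map_add' := fun c c' => by
        funext i j
        simp [add_smul] }

theorem s32a_aW_single (ρ : G →* Module.End 𝔸 W) (y : Fin s → W) (g : G) (c : Fin n → 𝔸)
    (i : Fin n) (j : Fin s) :
    s32a_aW ρ y (Finsupp.single g c) i j = c i • ρ g (y j) := by
  unfold s32a_aW
  rw [Finsupp.liftAddHom_apply_single]
  rfl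

theorem s32a_aW_smul (ρ : G →* Module.End 𝔸 W) (y : Fin s → W) (h : G)
    (f : G →₀ (Fin n → 𝔸)) (i : Fin n) (j : Fin s) :
    s32a_aW ρ y (h • f) i j = ρ h (s32a_aW ρ y f i j) := by
  induction f using Finsupp.induction_linear with
  | zero => rw [smul_zero, map_zero, Pi.zero_apply, Pi.zero_apply, map_zero]
  | add f f' hf hf' =>
    rw [smul_add, map_add, map_add, Pi.add_apply, Pi.add_apply, Pi.add_apply, Pi.add_apply, hf, hf',
      map_add]
  | single g c =>
    rw [Finsupp.comapSMul_single, s32a_aW_single, s32a_aW_single, smul_eq_mul, map_mul,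
      Module.End.mul_apply, LinearMap.map_smul]

/-- The map to `V`. -/
def s32a_u (π : 𝔸 →+* T) (σ : G →* Module.End T V) (v₀ : V) :
    (G →₀ (Fin n → 𝔸)) →+ (Fin n → V) :=
  Finsupp.liftAddHom fun g =>
    { toFun := fun c i => π (c i) • σ g v₀
      map_zero' := by
        funext i
        simp
      map_add' := fun c c' => by
        funext i
        simp [add_smul] }

theorem s32a_u_single (π : 𝔸 →+* T) (σ : G →* Module.End T V) (v₀ : V) (g : G) (c : Fin n → 𝔸)
    (i : Fin n) :
    s32a_u π σ v₀ (Finsupp.single g c) i = π (c i) • σ g v₀ := by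
  unfold s32a_u
  rw [Finsupp.liftAddHom_apply_single]
  rfl

theorem s32a_u_smul (π : 𝔸 →+* T) (σ : G →* Module.End T V) (v₀ : V) (h : G)
    (f : G →₀ (Fin n → 𝔸)) (i : Fin n) :
    s32a_u π σ v₀ (h • f) i = σ h (s32a_u π σ v₀ f i) := by
  induction f using Finsupp.induction_linear with
  | zero => rw [smul_zero, map_zero, Pi.zero_apply, map_zero]
  | add f f' hf hf' =>
    rw [smul_add, map_add, map_add, Pi.add_apply, Pi.add_apply, hf, hf', map_add]
  | single g c =>
    rw [Finsupp.comapSMul_single, s32a_u_single, s32a_u_single, smul_eq_mul, map_mul,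
      Module.End.mul_apply, LinearMap.map_smul]

/-- The coefficient `Σ_g f(g)_i * DD (h g)`. -/
def s32a_c (DD : G → 𝔸) (h : G) : (G →₀ (Fin n → 𝔸)) →+ (Fin n → 𝔸) :=
  Finsupp.liftAddHom fun g =>
    { toFun := fun c i => c i * DD (h * g)
      map_zero' := by
        funext i
        simp
      map_add' := fun c c' => by
        funext i
        simp [add_mul] }

theorem s32a_c_single (DD : G → 𝔸) (h g : G) (c : Fin n → 𝔸) (i : Fin n) :
    s32a_c DD h (Finsupp.single g c) i = c i * DD (h * g) := by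
  unfold s32a_c
  rw [Finsupp.liftAddHom_apply_single]
  rfl

/-- If `Eb (ρ g (y j)) = DD g • y j` for all `g`, then `Eb ∘ ρ h` maps `a(f)_{ij}` to
`c_h(f)_i • y j`. -/
theorem s32a_c_spec (ρ : G →* Module.End 𝔸 W) (y : Fin s → W) (DD : G → 𝔸)
    (Eb : Module.End 𝔸 W) (hkey : ∀ (g : G) (j : Fin s), Eb (ρ g (y j)) = DD g • y j) (h : G)
    (f : G →₀ (Fin n → 𝔸)) (i : Fin n) (j : Fin s) :
    Eb (ρ h (s32a_aW ρ y f i j)) = s32a_c DD h f i • y j := by
  induction f using Finsupp.induction_linear with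
  | zero => rw [map_zero, map_zero, Pi.zero_apply, Pi.zero_apply, Pi.zero_apply, map_zero, map_zero,
      zero_smul]
  | add f f' hf hf' =>
    rw [map_add, map_add, Pi.add_apply, Pi.add_apply, Pi.add_apply, map_add, map_add, hf, hf',
      add_smul]
  | single g c =>
    have e : ρ h (ρ g (y j)) = ρ (h * g) (y j) := by rw [map_mul, Module.End.mul_apply]
    rw [s32a_aW_single, s32a_c_single, LinearMap.map_smul, LinearMap.map_smul, e, hkey, mul_smul]

/-- If `π (DD g) = φ (σ g v₀)` for all `g`, then `π (c_h(f)_i) = φ (σ h (u(f)_i))`. -/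
theorem s32a_c_pi (π : 𝔸 →+* T) (σ : G →* Module.End T V) (v₀ : V) (DD : G → 𝔸)
    (φ : V →ₗ[T] T) (hDD : ∀ g : G, π (DD g) = φ (σ g v₀)) (h : G)
    (f : G →₀ (Fin n → 𝔸)) (i : Fin n) :
    π (s32a_c DD h f i) = φ (σ h (s32a_u π σ v₀ f i)) := by
  induction f using Finsupp.induction_linear with
  | zero => rw [map_zero, map_zero, Pi.zero_apply, Pi.zero_apply, map_zero, map_zero, map_zero]
  | add f f' hf hf' =>
    rw [map_add, map_add, Pi.add_apply, Pi.add_apply, map_add, map_add, map_add, hf, hf']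
  | single g c =>
    have e : σ h (σ g v₀) = σ (h * g) v₀ := by rw [map_mul, Module.End.mul_apply]
    rw [s32a_c_single, s32a_u_single, map_mul, LinearMap.map_smul, LinearMap.map_smul, e, hDD,
      smul_eq_mul]

/-- `f ↦ Σ_i x_i • u(f)_i` is onto modulo `J` when the `x_i` represent `T / J` and the orbit of
`v₀` spans `V`. -/
theorem s32a_b_onto (π : 𝔸 →+* T) (σ : G →* Module.End T V) (v₀ : V) (x : Fin n → T)
    (J : Ideal T) (hx : ∀ t : T, ∃ i : Fin n, t - x i ∈ J)
    (hsp : Submodule.span T (Set.range fun g => σ g v₀) = ⊤) (v : V) :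
    ∃ f : G →₀ (Fin n → 𝔸),
      (∑ i, x i • s32a_u π σ v₀ f i) - v ∈ J • (⊤ : Submodule T V) := by
  classical
  have hv : v ∈ Submodule.span T (Set.range fun g => σ g v₀) := by rw [hsp]; trivial
  obtain ⟨c, rfl⟩ := Finsupp.mem_span_range_iff_exists_finsupp.mp hv
  unfold Finsupp.sum
  refine Finset.sum_induction (fun g => c g • σ g v₀)
    (fun v => ∃ f : G →₀ (Fin n → 𝔸),
      (∑ i, x i • s32a_u π σ v₀ f i) - v ∈ J • (⊤ : Submodule T V)) ?_ ?_ ?_
  · rintro v v' ⟨f, hf⟩ ⟨f', hf'⟩
    refine ⟨f + f', ?_⟩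
    have e : (∑ i, x i • s32a_u π σ v₀ (f + f') i) - (v + v') =
        ((∑ i, x i • s32a_u π σ v₀ f i) - v) + ((∑ i, x i • s32a_u π σ v₀ f' i) - v') := by
      rw [map_add]
      simp only [Pi.add_apply, smul_add, Finset.sum_add_distrib]
      abel
    rw [e]
    exact Submodule.add_mem _ hf hf'
  · refine ⟨0, ?_⟩
    rw [map_zero]
    simp
  · intro g _
    obtain ⟨i, hi⟩ := hx (c g)
    refine ⟨Finsupp.single g (Pi.single i 1), ?_⟩
    have e : (∑ i', x i' • s32a_u π σ v₀ (Finsupp.single g (Pi.single i (1 : 𝔸))) i') =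
        x i • σ g v₀ := by
      rw [Finset.sum_eq_single i]
      · rw [s32a_u_single, Pi.single_eq_same, map_one, one_smul]
      · intro i' _ hne
        rw [s32a_u_single, Pi.single_eq_of_ne hne, map_zero, zero_smul, smul_zero]
      · intro hni
        exact absurd (Finset.mem_univ i) hni
    rw [e, ← sub_smul]
    have h2 : x i - c g ∈ J := by
      have := J.neg_mem hi
      rwa [neg_sub] at this
    exact Submodule.smul_mem_smul h2 Submodule.mem_top

end

end Fermat.Agent.Lib.S32
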