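/-
W-A programme (S32), brick [S32-ABS] (helper6), part 3: THE ABSTRACT CORE.

Setting of `Lib/S33/GAbs.lean` (section `Pointwise`): a commutative ring `𝔸`, a faithful `𝔸`-module
`W`, a group `G` acting `𝔸`-linearly with the Cayley–Hamilton relation, a splitting
`(X - α)(X - β)` of the characteristic polynomial of `τ₀` with `α - β` a unit.
* `s32a_faithful_Eb` : the `β`-eigenspace `E_β W` is a faithful `𝔸`-module as soon as some
  `𝔸𝔸(g₀ h₀) - 𝔸𝔸(g₀) 𝔸𝔸(h₀)` is a unit (`𝔸𝔸` = the upper left entry function, i.e. `s33g_DD` for the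
  swapped roots);
* `s32a_core` : for `W` finite over a Noetherian ring `R`, a ring homomorphism `π : 𝔸 → T`, a
  `T[G]`-module `V` with `π (𝔻 g) = φ (σ g v₀)` and `π(ϖ)^m₀ ∈ J`: there are `m`, `s` and
  `β`-eigenvectors `y_1..y_s` such that `a(f) ∈ ϖ^m W^{n s}` implies `φ (σ h (u(f)_i)) ∈ J` for all
  `i`, `h`.
-/
import Fermat.Agent.Lib.S33.GAbs
import Fermat.Agent.Lib.S32.AAlg
import Fermat.Agent.Lib.S32.AFree

set_option autoImplicit false
set_option linter.unusedSectionVars false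

namespace Fermat.Agent.Lib.S32

open Fermat.Agent.Lib.S33

noncomputable section

section Faith

variable {𝔸 : Type*} [CommRing 𝔸] {W : Type*} [AddCommGroup W] [Module 𝔸 W]
  {G : Type*} [Group G]
  (ρ : G →* Module.End 𝔸 W) (t : G → 𝔸) (d : G →* 𝔸ˣ)
  (hCH : ∀ g : G, ∀ w : W, ρ g w + (d g : 𝔸) • ρ g⁻¹ w = t g • w)
  (τ₀ : G) (α β u : 𝔸) (hsum : α + β = t τ₀) (hprod : α * β = (d τ₀ : 𝔸))
  (hu : (α - β) * u = 1)

theorem s32a_Eb_swap (w : W) : s33g_Eb ρ τ₀ β (-u) w = s33g_Ea ρ τ₀ β u w := by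
  rw [s33g_Eb_apply, s33g_Ea_apply]
  module

theorem s32a_Ea_swap (w : W) : s33g_Ea ρ τ₀ α (-u) w = s33g_Eb ρ τ₀ α u w := by
  rw [s33g_Eb_apply, s33g_Ea_apply]
  module

include hCH hsum hprod hu in
/-- The `β`-eigenspace is faithful. -/
theorem s32a_faithful_Eb (hfaith : ∀ c : 𝔸, (∀ w : W, c • w = 0) → c = 0) (g₀ h₀ : G) (z : 𝔸)
    (hirr : (s33g_DD t τ₀ β (-u) (g₀ * h₀) -
      s33g_DD t τ₀ β (-u) g₀ * s33g_DD t τ₀ β (-u) h₀) * z = 1)
    (c : 𝔸) (hc : ∀ w : W, c • s33g_Eb ρ τ₀ α u w = 0) : c = 0 := by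
  have hsum' : β + α = t τ₀ := by rw [add_comm]; exact hsum
  have hprod' : β * α = (d τ₀ : 𝔸) := by rw [mul_comm]; exact hprod
  have hu' : (β - α) * (-u) = 1 := by linear_combination hu
  apply hfaith
  intro w
  have ha : c • s33g_Ea ρ τ₀ β u w = 0 := by
    have hx : ρ τ₀ (s33g_Ea ρ τ₀ β u w) = α • s33g_Ea ρ τ₀ β u w :=
      s33g_tau_Ea ρ t d hCH τ₀ α β u hsum hprod w
    have h1 := s33g_Eb_rho_Ea_rho ρ t d hCH τ₀ β α (-u) hsum' hprod' hu' g₀ h₀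
      (s33g_Ea ρ τ₀ β u w) hx
    rw [s32a_Ea_swap, s32a_Eb_swap] at h1
    have h2 := congrArg (fun x => c • x) h1
    beta_reduce at h2
    rw [← LinearMap.map_smul, ← LinearMap.map_smul, hc, map_zero, map_zero] at h2
    have h3 : s33g_Ea ρ τ₀ β u w = (z * (s33g_DD t τ₀ β (-u) (g₀ * h₀) -
        s33g_DD t τ₀ β (-u) g₀ * s33g_DD t τ₀ β (-u) h₀)) • s33g_Ea ρ τ₀ β u w := by
      rw [mul_comm, hirr, one_smul]
    rw [h3, mul_smul, smul_comm c z, ← h2, smul_zero]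
  rw [← s33g_Ea_add_Eb ρ τ₀ α β u hu w, smul_add, ha, hc, add_zero]

end Faith

section Core

attribute [local instance] Finsupp.comapDistribMulAction

variable {R : Type*} [CommRing R] [IsNoetherianRing R]
  {𝔸 : Type*} [CommRing 𝔸] [Algebra R 𝔸]
  {W : Type*} [AddCommGroup W] [Module R W] [Module 𝔸 W] [IsScalarTower R 𝔸 W] [Module.Finite R W]
  {G : Type*} [Group G]
  {T : Type*} [CommRing T] {V : Type*} [AddCommGroup V] [Module T V]

/-- **The abstract core.** -/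
theorem s32a_core
    (hfaith : ∀ c : 𝔸, (∀ w : W, c • w = 0) → c = 0)
    (ρ : G →* Module.End 𝔸 W) (t : G → 𝔸) (d : G →* 𝔸ˣ)
    (hCH : ∀ g : G, ∀ w : W, ρ g w + (d g : 𝔸) • ρ g⁻¹ w = t g • w)
    (τ₀ : G) (α β u : 𝔸) (hsum : α + β = t τ₀) (hprod : α * β = (d τ₀ : 𝔸))
    (hu : (α - β) * u = 1)
    (g₀ h₀ : G) (z : 𝔸)
    (hirr : (s33g_DD t τ₀ β (-u) (g₀ * h₀) -
      s33g_DD t τ₀ β (-u) g₀ * s33g_DD t τ₀ β (-u) h₀) * z = 1)
    (π : 𝔸 →+* T) (σ : G →* Module.End T V) (v₀ : V) (φ : V →ₗ[T] T)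
    (hDD : ∀ g : G, π (s33g_DD t τ₀ α u g) = φ (σ g v₀))
    (ϖ : R) (J : Ideal T) (m₀ : ℕ) (hm₀ : π (algebraMap R 𝔸 ϖ) ^ m₀ ∈ J) (n : ℕ) :
    ∃ (m s : ℕ) (y : Fin s → W), ∀ f : G →₀ (Fin n → 𝔸),
      (∀ (i : Fin n) (j : Fin s), ∃ w : W, s32a_aW ρ y f i j = ϖ ^ m • w) →
        ∀ (i : Fin n) (h : G), φ (σ h (s32a_u π σ v₀ f i)) ∈ J := by
  obtain ⟨s, y₀, hy₀⟩ := Module.Finite.exists_fin (R := R) (M := W)
  set Eb : Module.End 𝔸 W := s33g_Eb ρ τ₀ α u with hEb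
  set y : Fin s → W := fun j => Eb (y₀ j) with hy
  have hMfaith : ∀ c : 𝔸, (∀ w : W, c • Eb w = 0) → c = 0 := fun c hc =>
    s32a_faithful_Eb ρ t d hCH τ₀ α β u hsum hprod hu hfaith g₀ h₀ z hirr c hc
  -- the linear map `c ↦ (c • y j)_j`
  let ι : 𝔸 →ₗ[R] (Fin s → W) :=
    { toFun := fun c j => c • y j
      map_add' := fun c c' => by
        funext j
        rw [Pi.add_apply, add_smul]
      map_smul' := fun r c => by
        funext j
        rw [RingHom.id_apply, Pi.smul_apply, smul_assoc] }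
  have hι_apply : ∀ (c : 𝔸) (j : Fin s), ι c j = c • y j := fun c j => rfl
  have hι : Function.Injective ι := by
    rw [injective_iff_map_eq_zero]
    intro c hc
    apply hMfaith
    intro w
    have hw : w ∈ Submodule.span R (Set.range y₀) := by rw [hy₀]; trivial
    induction hw using Submodule.span_induction with
    | mem x hx =>
      obtain ⟨j, rfl⟩ := hx
      have := congrFun hc j
      rwa [hι_apply] at this
    | zero => rw [map_zero, smul_zero]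
    | add x x' _ _ hx hx' => rw [map_add, smul_add, hx, hx', add_zero]
    | smul r x _ hx => rw [LinearMap.map_smul_of_tower, smul_comm, hx, smul_zero]
  obtain ⟨c₀, hc₀⟩ := s32a_ar ι hι ϖ
  refine ⟨m₀ + c₀, s, y, fun f hf i h => ?_⟩
  have hkey : ∀ (g : G) (j : Fin s), Eb (ρ g (y j)) = s33g_DD t τ₀ α u g • y j := fun g j =>
    s33g_Eb_rho_eigen ρ t d hCH τ₀ α β u hsum hprod hu g (y j)
      (s33g_tau_Eb ρ t d hCH τ₀ α β u hsum hprod (y₀ j))
  rw [← s32a_c_pi π σ v₀ (s33g_DD t τ₀ α u) φ hDD h f i]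
  choose w hw using hf i
  obtain ⟨c', hc'⟩ := hc₀ m₀ (s32a_c (s33g_DD t τ₀ α u) h f i) ⟨fun j => Eb (ρ h (w j)), by
    funext j
    rw [hι_apply, ← s32a_c_spec ρ y (s33g_DD t τ₀ α u) Eb hkey h f i j, hw j,
      LinearMap.map_smul_of_tower, LinearMap.map_smul_of_tower, Pi.smul_apply]⟩
  rw [hc', Algebra.smul_def, map_mul, map_pow, map_pow]
  exact J.mul_mem_right _ hm₀

end Core

end

end Fermat.Agent.Lib.S32
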