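/-
W-A programme (S32): INTERFACE of the abstract algebra brick [S32-ABS] (architect: helper5).

Setting = the setting of `s33g_main` (Lib/S33/GMain.lean): a finite free `ℤ_[p]`-module `Λ` with an
action `ρ` of `G_ℚ`, a commutative `ℤ_[p]`-algebra `A` acting faithfully on `Λ` and commuting with
`ρ`, a character `ε`, `tA : G_ℚ → A` with the Cayley–Hamilton relation `ρ g + ε g • ρ g⁻¹ = tA g`;
a local ring `T` (`p ∈ 𝔪_T`), `πA : A →+* T`, `rT : GaloisRepAdic T` whose image spans `End`,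
`tr rT = πA ∘ tA`, `det rT = πA ∘ ε`; an element `τ₀` with `1 - ε τ₀` a unit and
`tr rT(τ₀) ≡ 1 + det rT(τ₀) mod 𝔪_T` (in the application: complex conjugation).

Conclusion: for every ideal `J` of `T` of finite index, `rT.V / J rT.V` is a Galois SUBQUOTIENT of
`(Λ / p^m Λ)^r`, in the following quotient-free form: there are a Galois module `F` and equivariant
additive maps `a : F → Λ^r`, `b : F → rT.V` with `b` onto modulo `J`, and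
`a f ∈ p^m Λ^r ⇒ b f ∈ J • V`.
-/
import Mathlib
import Fermat.Prelude.Def_GaloisRep_Adic

set_option autoImplicit false

namespace Fermat.Agent.Lib.S32

open IsLocalRing

/-- [S32-ABS] the abstract subquotient theorem. -/
def s32_Abs : Prop :=
  ∀ {p : ℕ} [Fact p.Prime]
    {Λ : Type} [AddCommGroup Λ] [Module ℤ_[p] Λ] [Module.Free ℤ_[p] Λ] [Module.Finite ℤ_[p] Λ]
    {A : Type} [CommRing A] [Algebra ℤ_[p] A]
    {T : Type} [CommRing T] [IsLocalRing T]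
    (act : A →ₐ[ℤ_[p]] Module.End ℤ_[p] Λ) (_ : Function.Injective act)
    (πA : A →+* T) (_ : (p : T) ∈ maximalIdeal T)
    (rT : GaloisRepAdic T) (_ : Submodule.span T (Set.range rT.ρ) = ⊤)
    (ρ : (AlgebraicClosure ℚ ≃ₐ[ℚ] AlgebraicClosure ℚ) →* Module.End ℤ_[p] Λ)
    (_ : ∀ (g : AlgebraicClosure ℚ ≃ₐ[ℚ] AlgebraicClosure ℚ) (a : A) (w : Λ),
      ρ g (act a w) = act a (ρ g w))
    (ε : (AlgebraicClosure ℚ ≃ₐ[ℚ] AlgebraicClosure ℚ) →* ℤ_[p]ˣ)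
    (tA : (AlgebraicClosure ℚ ≃ₐ[ℚ] AlgebraicClosure ℚ) → A)
    (_ : ∀ (g : AlgebraicClosure ℚ ≃ₐ[ℚ] AlgebraicClosure ℚ) (w : Λ),
      ρ g w + ((ε g : ℤ_[p]ˣ) : ℤ_[p]) • ρ g⁻¹ w = act (tA g) w)
    (_ : ∀ g : AlgebraicClosure ℚ ≃ₐ[ℚ] AlgebraicClosure ℚ,
      πA (tA g) = LinearMap.trace T rT.V (rT.ρ g))
    (_ : ∀ g : AlgebraicClosure ℚ ≃ₐ[ℚ] AlgebraicClosure ℚ,
      πA (algebraMap ℤ_[p] A ((ε g : ℤ_[p]ˣ) : ℤ_[p])) = LinearMap.det (rT.ρ g))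
    (τ₀ : AlgebraicClosure ℚ ≃ₐ[ℚ] AlgebraicClosure ℚ)
    (_ : IsUnit (1 - ((ε τ₀ : ℤ_[p]ˣ) : ℤ_[p])))
    (_ : LinearMap.trace T rT.V (rT.ρ τ₀) - 1 - LinearMap.det (rT.ρ τ₀) ∈ maximalIdeal T)
    (J : Ideal T) (_ : Finite (T ⧸ J)),
    ∃ (m r : ℕ) (F : Type) (_ : AddCommGroup F)
      (_ : DistribMulAction (AlgebraicClosure ℚ ≃ₐ[ℚ] AlgebraicClosure ℚ) F)
      (a : F →+ (Fin r → Λ)) (b : F →+ rT.V),
      (∀ (g : AlgebraicClosure ℚ ≃ₐ[ℚ] AlgebraicClosure ℚ) (f : F) (j : Fin r),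
        a (g • f) j = ρ g (a f j)) ∧
      (∀ (g : AlgebraicClosure ℚ ≃ₐ[ℚ] AlgebraicClosure ℚ) (f : F), b (g • f) = rT.ρ g (b f)) ∧
      (∀ v : rT.V, ∃ f : F, b f - v ∈ J • (⊤ : Submodule T rT.V)) ∧
      (∀ f : F, (∀ j : Fin r, ∃ w : Λ, a f j = (p : ℤ_[p]) ^ m • w) →
        b f ∈ J • (⊤ : Submodule T rT.V))

end Fermat.Agent.Lib.S32
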