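/-
W-A programme (S32), brick [S32-ABS] (helper6), part 4: **THE ABSTRACT SUBQUOTIENT THEOREM**
`s32a_abs : s32_Abs` (contract: `Lib/S32/IfaceAbs.lean`).

The first part of the proof (local idempotent `e`, the local factor `Q = A / (1 - e)`, Hensel roots
`α, β` of the characteristic polynomial of `τ₀`, a basis `b'` of `rT.V` diagonalising `rT τ₀`, the
entry function `𝔻`) is the one of `s33g_main` (Lib/S33/GMain.lean, helper2).  Then the abstract core
`s32a_core` (Lib/S32/ACore.lean) is applied to `W = e Λ`, `F = G_ℚ →₀ (Fin n → Q)`.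
-/
import Fermat.Agent.Lib.S33.GTheta
import Fermat.Agent.Lib.S32.ACore
import Fermat.Agent.Lib.S32.IfaceAbs

set_option autoImplicit false
set_option linter.unusedSectionVars false
set_option linter.style.haveILetI false

namespace Fermat.Agent.Lib.S32

open IsLocalRing Module Polynomial Fermat.Agent.Lib.S53 Fermat.Agent.Lib.S33

local notation "Γℚ" => (AlgebraicClosure ℚ ≃ₐ[ℚ] AlgebraicClosure ℚ)

noncomputable section

attribute [local instance] Finsupp.comapDistribMulAction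

/-- **[S32-ABS]** -/
theorem s32a_abs : s32_Abs := by
  intro p _ Λ _ _ _ _ A _ _ T _ _ act hact πA hpT rT hspan ρ hcomm ε tA hCH htr hdet τ₀ hετ hres J hJ
  classical
  -- finiteness of `A` and the local idempotent
  haveI : Module.Finite ℤ_[p] A := Module.Finite.of_injective act.toLinearMap hact
  obtain ⟨e, hee, hπe, he3⟩ := s33g_exists_idem πA hpT
  letI hloc : IsLocalRing (s33g_Q e) := s33g_Q_isLocalRing πA e hπe he3
  haveI hcompl : IsAdicComplete (maximalIdeal (s33g_Q e)) (s33g_Q e) :=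
    s33g_Q_complete πA e hπe he3 hpT
  haveI hhens : HenselianRing (s33g_Q e) (maximalIdeal (s33g_Q e)) := inferInstance
  set πQ : s33g_Q e →+* T := s33g_piQ πA e hπe with hπQ
  have hunitQ : ∀ x : s33g_Q e, IsUnit (πQ x) → IsUnit x :=
    fun x hx => s33g_isUnit_of_piQ πA e hπe he3 x hx
  have hmemQ : ∀ x : s33g_Q e, πQ x ∈ maximalIdeal T → x ∈ maximalIdeal (s33g_Q e) := by
    intro x hx
    rw [mem_maximalIdeal, mem_nonunits_iff]
    intro hu
    exact (mem_maximalIdeal _).mp hx (hu.map πQ)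
  -- scalars on the local factor
  set tQ : Γℚ → s33g_Q e := fun g => Ideal.Quotient.mk (Ideal.span {1 - e}) (tA g) with htQ
  set dQ : Γℚ →* (s33g_Q e)ˣ :=
    (Units.map (algebraMap ℤ_[p] (s33g_Q e) : ℤ_[p] →* s33g_Q e)).comp ε with hdQ
  have hdQ_coe : ∀ g : Γℚ, ((dQ g : (s33g_Q e)ˣ) : s33g_Q e) =
      algebraMap ℤ_[p] (s33g_Q e) ((ε g : ℤ_[p]ˣ) : ℤ_[p]) := fun g => rfl
  have hπtQ : ∀ g : Γℚ, πQ (tQ g) = LinearMap.trace T rT.V (rT.ρ g) := by
    intro g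
    rw [htQ, hπQ, s33g_piQ_mk, htr]
  have hπdQ : ∀ g : Γℚ, πQ ((dQ g : (s33g_Q e)ˣ) : s33g_Q e) = LinearMap.det (rT.ρ g) := by
    intro g
    rw [hdQ_coe, ← hdet g]
    have : algebraMap ℤ_[p] (s33g_Q e) ((ε g : ℤ_[p]ˣ) : ℤ_[p]) =
        Ideal.Quotient.mk (Ideal.span {1 - e}) (algebraMap ℤ_[p] A ((ε g : ℤ_[p]ˣ) : ℤ_[p])) := rfl
    rw [this, hπQ, s33g_piQ_mk]
  -- Hensel roots
  have h1 : 1 - tQ τ₀ + ((dQ τ₀ : (s33g_Q e)ˣ) : s33g_Q e) ∈ maximalIdeal (s33g_Q e) := by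
    apply hmemQ
    rw [map_add, map_sub, map_one, hπtQ, hπdQ]
    have := (Ideal.neg_mem_iff _).mpr hres
    have e1 : -(LinearMap.trace T rT.V (rT.ρ τ₀) - 1 - LinearMap.det (rT.ρ τ₀)) =
        1 - LinearMap.trace T rT.V (rT.ρ τ₀) + LinearMap.det (rT.ρ τ₀) := by ring
    rwa [e1] at this
  have h2 : IsUnit (1 - ((dQ τ₀ : (s33g_Q e)ˣ) : s33g_Q e)) := by
    rw [hdQ_coe, ← map_one (algebraMap ℤ_[p] (s33g_Q e)), ← map_sub]
    exact hετ.map _
  obtain ⟨α, β, hsum, hprod, hβ1, hαβ, hα1⟩ := s33g_hensel_roots (tQ τ₀) _ h1 h2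
  obtain ⟨uu, huu⟩ := hαβ
  set u : s33g_Q e := ((uu⁻¹ : (s33g_Q e)ˣ) : s33g_Q e) with hu_def
  have hu : (α - β) * u = 1 := by rw [← huu, hu_def, Units.mul_inv]
  -- the `T`-side: diagonalise `rT τ₀`
  set αT : T := πQ α with hαT
  set βT : T := πQ β with hβT
  set b₀ : Basis (Fin 2) T rT.V := Module.finBasisOfFinrankEq T rT.V rT.finrank_eq with hb₀
  have htrM : (matOf rT b₀ τ₀).trace = αT + βT := by
    rw [s33g_trace_matOf, ← hπtQ, ← hsum, map_add]
  have hdetM : (matOf rT b₀ τ₀).det = αT * βT := by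
    rw [s33g_det_matOf, ← hπdQ, ← hprod, map_mul]
  have huT : πQ u * (αT - βT) = 1 := by
    rw [hαT, hβT, ← map_sub, ← map_mul, mul_comm, hu, map_one]
  have hunitT : IsUnit (αT - βT) := IsUnit.of_mul_eq_one _ (by rw [mul_comm]; exact huT)
  obtain ⟨c, d, hcd, hdc, hdiag⟩ := s33g_exists_diag2 (matOf rT b₀ τ₀) αT βT htrM hdetM hunitT
  obtain ⟨b', hb'⟩ := exists_basis_conj rT b₀ c d hcd hdc
  set r := matOf rT b' with hr
  have hrτ : r τ₀ = s33g_diag2 αT βT := by rw [hr, hb', hdiag]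
  have htrr : ∀ g, (r g).trace = LinearMap.trace T rT.V (rT.ρ g) := fun g => s33g_trace_matOf rT b' g
  -- `πQ` of the `𝔻`-function is the lower right entry
  have hDD : ∀ g : Γℚ, πQ (s33g_DD tQ τ₀ α u g) = (r g) 1 1 := by
    intro g
    have h3 := s33g_entry_formula2 r τ₀ αT βT hrτ g
    rw [htrr, htrr] at h3
    unfold s33g_DD
    rw [map_mul, map_neg, map_sub, map_mul, hπtQ, hπtQ, ← hαT, ← h3]
    linear_combination (r g) 1 1 * huT
  -- the entry function for the swapped roots is the upper left entry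
  have hAA : ∀ g : Γℚ, s33g_DD tQ τ₀ β (-u) g = tQ g - s33g_DD tQ τ₀ α u g := by
    intro g
    unfold s33g_DD
    linear_combination (tQ g) * hu
  have hπAA : ∀ g : Γℚ, πQ (s33g_DD tQ τ₀ β (-u) g) = (r g) 0 0 := by
    intro g
    rw [hAA, map_sub, hπtQ, hDD, ← htrr, Matrix.trace_fin_two]
    ring
  -- the irreducibility unit
  obtain ⟨g₀, hg₀⟩ := s33g_exists_unit_entry rT hspan b'
  obtain ⟨h₀, hh₀⟩ := s33g_exists_unit_entry10 rT hspan b'
  have hirrT : πQ (s33g_DD tQ τ₀ β (-u) (g₀ * h₀) -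
      s33g_DD tQ τ₀ β (-u) g₀ * s33g_DD tQ τ₀ β (-u) h₀) = (r g₀) 0 1 * (r h₀) 1 0 := by
    rw [map_sub, map_mul, hπAA, hπAA, hπAA, map_mul, Matrix.mul_apply, Fin.sum_univ_two]
    ring
  have hirrU : IsUnit (s33g_DD tQ τ₀ β (-u) (g₀ * h₀) -
      s33g_DD tQ τ₀ β (-u) g₀ * s33g_DD tQ τ₀ β (-u) h₀) := by
    apply hunitQ
    rw [hirrT]
    exact hg₀.mul hh₀
  obtain ⟨zz, hzz⟩ := hirrU
  have hirr : (s33g_DD tQ τ₀ β (-u) (g₀ * h₀) -
      s33g_DD tQ τ₀ β (-u) g₀ * s33g_DD tQ τ₀ β (-u) h₀) *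
      ((zz⁻¹ : (s33g_Q e)ˣ) : s33g_Q e) = 1 := by
    rw [← hzz, Units.mul_inv]
  -- the `e`-part and its structures
  set ρW := s33g_rhoW act e ρ hcomm with hρW
  have hCHW : ∀ (g : Γℚ) (w : ↥(s33g_W act e)),
      ρW g w + ((dQ g : (s33g_Q e)ˣ) : s33g_Q e) • ρW g⁻¹ w = tQ g • w := by
    intro g w
    apply Subtype.ext
    rw [hdQ_coe, algebraMap_smul, Submodule.coe_add, Submodule.coe_smul, hρW, s33g_rhoW_coe,
      s33g_rhoW_coe, htQ, s33g_mk_smul_coe]
    exact hCH g w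
  -- the functional
  have hDD' : ∀ g : Γℚ, πQ (s33g_DD tQ τ₀ α u g) = b'.coord 1 (rT.ρ g (b' 1)) := by
    intro g
    rw [hDD, hr, matOf_apply, LinearMap.toMatrix_apply, Module.Basis.coord_apply]
  -- a power of `p` in `J`
  obtain ⟨m₀, hm₀⟩ := s32a_pow_mem J (p : T) hpT
  have hm₀' : πQ (algebraMap ℤ_[p] (s33g_Q e) (p : ℤ_[p])) ^ m₀ ∈ J := by
    rw [map_natCast, map_natCast]
    exact hm₀
  -- representatives of `T / J`
  obtain ⟨n, ⟨eqv⟩⟩ := Finite.exists_equiv_fin (T ⧸ J)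
  set x : Fin n → T := fun i =>
    Function.surjInv (Ideal.Quotient.mk_surjective (I := J)) (eqv.symm i) with hx_def
  have hx : ∀ t : T, ∃ i : Fin n, t - x i ∈ J := by
    intro t
    refine ⟨eqv (Ideal.Quotient.mk J t), ?_⟩
    have h3 : Ideal.Quotient.mk J (x (eqv (Ideal.Quotient.mk J t))) = Ideal.Quotient.mk J t := by
      show Ideal.Quotient.mk J (Function.surjInv (Ideal.Quotient.mk_surjective (I := J))
        (eqv.symm (eqv (Ideal.Quotient.mk J t)))) = _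
      rw [Function.surjInv_eq (Ideal.Quotient.mk_surjective (I := J)), Equiv.symm_apply_apply]
    exact Ideal.Quotient.eq.mp h3.symm
  -- the abstract core
  obtain ⟨m, s, y, hcore⟩ := s32a_core (R := ℤ_[p]) (s33g_faithful act e hee hact) ρW tQ dQ hCHW
    τ₀ α β u hsum hprod hu g₀ h₀ _ hirr πQ rT.ρ (b' 1) (b'.coord 1) hDD' (p : ℤ_[p]) J m₀ hm₀' n
  -- the two maps
  let a : (Γℚ →₀ (Fin n → s33g_Q e)) →+ (Fin (n * s) → Λ) :=
    AddMonoidHom.mk' (fun f k =>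
      ((s32a_aW ρW y f (finProdFinEquiv.symm k).1 (finProdFinEquiv.symm k).2 :
        ↥(s33g_W act e)) : Λ)) (by
      intro f f'
      funext k
      rw [map_add]
      rfl)
  let b : (Γℚ →₀ (Fin n → s33g_Q e)) →+ rT.V :=
    AddMonoidHom.mk' (fun f => ∑ i, x i • s32a_u πQ rT.ρ (b' 1) f i) (by
      intro f f'
      rw [map_add]
      simp only [Pi.add_apply, smul_add, Finset.sum_add_distrib])
  refine ⟨m, n * s, Γℚ →₀ (Fin n → s33g_Q e), inferInstance, Finsupp.comapDistribMulAction, a, b,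
    ?_, ?_, ?_, ?_⟩
  · intro g f k
    show ((s32a_aW ρW y (g • f) (finProdFinEquiv.symm k).1 (finProdFinEquiv.symm k).2 :
      ↥(s33g_W act e)) : Λ) = ρ g ((s32a_aW ρW y f (finProdFinEquiv.symm k).1
        (finProdFinEquiv.symm k).2 : ↥(s33g_W act e)) : Λ)
    rw [s32a_aW_smul]
    rfl
  · intro g f
    show ∑ i, x i • s32a_u πQ rT.ρ (b' 1) (g • f) i =
      rT.ρ g (∑ i, x i • s32a_u πQ rT.ρ (b' 1) f i)
    rw [map_sum]
    refine Finset.sum_congr rfl fun i _ => ?_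
    rw [s32a_u_smul, LinearMap.map_smul]
  · intro v
    obtain ⟨f, hf⟩ := s32a_b_onto πQ rT.ρ (b' 1) x J hx (s32a_span_orbit rT.ρ hspan b' 1) v
    exact ⟨f, hf⟩
  · intro f hf
    show ∑ i, x i • s32a_u πQ rT.ρ (b' 1) f i ∈ J • (⊤ : Submodule T rT.V)
    have hW : ∀ (i : Fin n) (j : Fin s), ∃ w : ↥(s33g_W act e),
        s32a_aW ρW y f i j = (p : ℤ_[p]) ^ m • w := by
      intro i j
      obtain ⟨l, hl⟩ := hf (finProdFinEquiv (i, j))
      have e1 : a f (finProdFinEquiv (i, j)) = ((s32a_aW ρW y f i j : ↥(s33g_W act e)) : Λ) := by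
        show ((s32a_aW ρW y f (finProdFinEquiv.symm (finProdFinEquiv (i, j))).1
          (finProdFinEquiv.symm (finProdFinEquiv (i, j))).2 : ↥(s33g_W act e)) : Λ) = _
        rw [Equiv.symm_apply_apply]
      have e2 : act e ((s32a_aW ρW y f i j : ↥(s33g_W act e)) : Λ) =
          ((s32a_aW ρW y f i j : ↥(s33g_W act e)) : Λ) :=
        (s33g_mem_W act e).mp (s32a_aW ρW y f i j).2
      refine ⟨⟨act e l, s33g_e_mem_W act e hee l⟩, Subtype.ext ?_⟩
      rw [Submodule.coe_smul]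
      show ((s32a_aW ρW y f i j : ↥(s33g_W act e)) : Λ) = (p : ℤ_[p]) ^ m • act e l
      rw [← e2, ← e1, hl, map_smul]
    refine Submodule.sum_mem _ fun i _ => Submodule.smul_mem _ _ ?_
    apply s32a_mem_of_coords b' J
    apply s32a_coords_of_span rT.ρ hspan b' 1 J
    intro h
    have h3 := hcore f hW i h
    rwa [Module.Basis.coord_apply] at h3

end

end Fermat.Agent.Lib.S32
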