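/-
W-A programme (S32): TOP-LEVEL INTERFACE AND ASSEMBLY of S32 (architect: helper5).

`s32_top`: the frozen statement of S32 from
* [S19-ORD] `s19_TorsOrder` : every `ℓ^k`-torsion module of `J₀(N)`, `ℓ ∤ N`, carries a Δ-closed
  function order (this is what the S19 tree proves before applying [HOPF]);
* [SUBQ] `s19_OrderSub`, `s19_OrderQuot`, `s19_OrderProd`, [HOPF] `s19_Hopf` (IfaceOrder);
* [FIN] `s19_TorsFinite`;
* [S32-SUBQ] `s32_Subq` : `V / J V` is a Galois subquotient of a power of `J₀(N)[p^m]`.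
-/
import Fermat.Agent.Lib.S19.IfaceTop
import Fermat.Prelude.Def_CuspForm_HeckeGaloisRepDatum
import Fermat.Prelude.Def_GaloisRep_Flat

set_option autoImplicit false
set_option linter.style.haveILetI false
set_option linter.unusedSectionVars false

noncomputable section

namespace Fermat.Agent.Lib.S32

open IsLocalRing ModularCurve Fermat.Agent.Lib.S19

/-- [S19-ORD] the torsion of `J₀(N)` at a prime `ℓ ∤ N` carries a Δ-closed function order. -/
def s19_TorsOrder : Prop :=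
  ∀ (N : ℕ) [NeZero N] (ℓ : ℕ) [Fact ℓ.Prime], ¬ ℓ ∣ N → ∀ k : ℕ,
    ∃ H, s19_IsOrder ℓ (s19_Tors N ℓ k) H

/-- **[S19-ORD] from the contracts of the S19 tree** (the first half of `s19_top`). -/
theorem s19_torsOrder_of (hF : s19_FramesExist) (hO : s19_OrderOfFrames) (hD : s19_Desc)
    (hS : s19_OrderSub) (hQ : s19_OrderQuot) (hL : s19_LevelChange)
    (hC : s19_Cont) (hfin : s19_TorsFinite)
    (hA : ∀ (ℓ : ℕ) [Fact ℓ.Prime], ∃ A : ValuationSubring s19_Qbar, A.LiesOverPrime ℓ) :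
    s19_TorsOrder := by
  intro p _ ℓ _ hℓp k
  obtain ⟨A, hA⟩ := hA ℓ
  obtain ⟨M, hM, k', hgood, T₁, i1, i2, i, q, hi, hie, hq, hqe⟩ := hL p ℓ hℓp k
  have hlA : (ℓ : s19_Qbar) ∈ A := by
    have h := (ValuationSubring.mem_nonunits_iff_exists_mem_maximalIdeal (A := A)).mp hA
    exact h.choose
  set l : ↥A := ⟨(ℓ : s19_Qbar), hlA⟩ with hl
  obtain ⟨J1, g, 𝔉, S, hFr⟩ := hF M ℓ hgood A hA l rfl
  haveI : Finite (s19_Tors M ℓ k') := hfin M ℓ k'
  have hloc : ∃ HW, s19_IsLocalOrder A (s19_Tors M ℓ k') HW :=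
    hO ℓ A hA l rfl (JZero M) J1 g 𝔉 S hFr (s19_Tors M ℓ k')
      (Submodule.torsionBy ℤ (JZero M) ((ℓ : ℤ) ^ k')).subtype.toAddMonoidHom
      Subtype.val_injective (fun σ x => rfl)
  have hglob : ∃ H, s19_IsOrder ℓ (s19_Tors M ℓ k') H := by
    refine hD ℓ A hA (s19_Tors M ℓ k') (fun x => ?_) hloc
    obtain ⟨E, hE, hfix⟩ := hC M (x : JZero M)
    exact ⟨E, hE, fun σ hσ => Subtype.ext (hfix σ hσ)⟩
  have h1 : ∃ H₁, s19_IsOrder ℓ T₁ H₁ := hS ℓ (s19_Tors M ℓ k') T₁ i hi hie hglob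
  haveI : Finite T₁ := Finite.of_injective i hi
  exact hQ ℓ T₁ (s19_Tors p ℓ k) q hq hqe h1

/-! ### powers -/

/-- orders pass to finite powers. -/
theorem s32_orderPow (hP : s19_OrderProd) (hS : s19_OrderSub)
    (ℓ : ℕ) [Fact ℓ.Prime] (T : Type) [AddCommGroup T] [Finite T] [DistribMulAction s19_Gal T]
    (h : ∃ H, s19_IsOrder ℓ T H) (r : ℕ) : ∃ H', s19_IsOrder ℓ (Fin r → T) H' := by
  induction r with
  | zero =>
    refine hS ℓ T (Fin 0 → T) 0 (fun x y _ => Subsingleton.elim x y) (fun σ x => ?_) h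
    simp
  | succ r ih =>
    have hprod := hP ℓ T (Fin r → T) h ih
    let i : (Fin (r + 1) → T) →+ T × (Fin r → T) :=
      { toFun := fun f => (f 0, fun j => f j.succ)
        map_zero' := rfl
        map_add' := fun _ _ => rfl }
    refine hS ℓ (T × (Fin r → T)) (Fin (r + 1) → T) i (fun f f' hff => ?_) (fun σ f => rfl) hprod
    have h0 : f 0 = f' 0 := congrArg Prod.fst hff
    have h1 : (fun j : Fin r => f j.succ) = fun j : Fin r => f' j.succ := congrArg Prod.snd hff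
    funext j
    refine Fin.cases h0 (fun j' => congrFun h1 j') j

/-! ### the Galois module `V / J V` -/

section level

variable {T : Type} [CommRing T] [IsLocalRing T] (ρ : GaloisRepAdic T) (J : Ideal T)

theorem s32_levelAction_mk (σ : s19_Gal) (v : ρ.V) :
    ρ.levelAction J σ (Submodule.Quotient.mk v) = Submodule.Quotient.mk (ρ.ρ σ v) := rfl

theorem s32_levelAction_one (x : ρ.V ⧸ (J • (⊤ : Submodule T ρ.V))) :
    ρ.levelAction J 1 x = x := by
  induction x using Submodule.Quotient.induction_on with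
  | H v => rw [s32_levelAction_mk, map_one, Module.End.one_apply]

theorem s32_levelAction_mul (σ τ : s19_Gal) (x : ρ.V ⧸ (J • (⊤ : Submodule T ρ.V))) :
    ρ.levelAction J (σ * τ) x = ρ.levelAction J σ (ρ.levelAction J τ x) := by
  induction x using Submodule.Quotient.induction_on with
  | H v => rw [s32_levelAction_mk, s32_levelAction_mk, s32_levelAction_mk, map_mul,
      Module.End.mul_apply]

/-- the Galois action on `V / J V` (a plain definition; made an instance locally). -/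
@[instance_reducible]
def s32_levelDMA : DistribMulAction s19_Gal (ρ.V ⧸ (J • (⊤ : Submodule T ρ.V))) where
  smul σ x := ρ.levelAction J σ x
  one_smul x := s32_levelAction_one ρ J x
  mul_smul σ τ x := s32_levelAction_mul ρ J σ τ x
  smul_zero σ := map_zero (ρ.levelAction J σ)
  smul_add σ x y := map_add (ρ.levelAction J σ) x y

end level

/-- [S32-SUBQ] in a Hecke–Galois datum of level `N` with `p ∤ N`, `p` odd, every finite quotient
`V / J V` is a Galois subquotient of a finite power of `J₀(N)[p^m]`. -/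
def s32_Subq : Prop :=
  ∀ {p : ℕ} {N : ℕ} [NeZero N] {S : Finset ℕ}
    {𝒪 : Type} [CommRing 𝒪] [IsDomain 𝒪] [IsDiscreteValuationRing 𝒪]
    [IsAdicComplete (IsLocalRing.maximalIdeal 𝒪) 𝒪]
    {θ : CuspForm.heckeAlgebra N 2 (↑S : Set ℕ) →+* IsLocalRing.ResidueField 𝒪}
    {T : Type} [CommRing T] [IsLocalRing T] [IsNoetherianRing T]
    [IsAdicComplete (IsLocalRing.maximalIdeal T) T] [Algebra 𝒪 T] [IsLocalHom (algebraMap 𝒪 T)]
    [Module.Finite 𝒪 T] [Module.Free 𝒪 T]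
    [Finite (IsLocalRing.ResidueField 𝒪)] [CharZero 𝒪],
    p.Prime → p ≠ 2 → (p : 𝒪) ∈ IsLocalRing.maximalIdeal 𝒪 → ¬ p ∣ N → p ∈ S →
    (∀ q : ℕ, q.Prime → q ∣ N → q ∈ S) →
    ∀ (H : CuspForm.HeckeGaloisRepDatum N (↑S : Set ℕ) 𝒪 θ T) (J : Ideal T), Finite (T ⧸ J) →
      ∃ (m r : ℕ) (T₁ : Type) (_ : AddCommGroup T₁) (_ : DistribMulAction s19_Gal T₁)
        (i : T₁ →+ (Fin r → s19_Tors N p m))
        (q : T₁ →+ H.ρ.V ⧸ (J • (⊤ : Submodule T H.ρ.V))),
        Function.Injective i ∧ (∀ (σ : s19_Gal) (x : T₁), i (σ • x) = σ • i x) ∧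
        Function.Surjective q ∧ ∀ (σ : s19_Gal) (x : T₁), q (σ • x) = H.ρ.levelAction J σ (q x)

variable {p : ℕ} {N : ℕ} [NeZero N] {S : Finset ℕ}
  {𝒪 : Type} [CommRing 𝒪] [IsDomain 𝒪] [IsDiscreteValuationRing 𝒪]
  [IsAdicComplete (IsLocalRing.maximalIdeal 𝒪) 𝒪]
  {θ : CuspForm.heckeAlgebra N 2 (↑S : Set ℕ) →+* IsLocalRing.ResidueField 𝒪}
  {T : Type} [CommRing T] [IsLocalRing T] [IsNoetherianRing T]
  [IsAdicComplete (IsLocalRing.maximalIdeal T) T] [Algebra 𝒪 T] [IsLocalHom (algebraMap 𝒪 T)]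
  [Module.Finite 𝒪 T] [Module.Free 𝒪 T]

/-- the residue field of `T` is finite. -/
theorem s32_finite_residueField [Finite (IsLocalRing.ResidueField 𝒪)]
    (H : CuspForm.HeckeGaloisRepDatum N (↑S : Set ℕ) 𝒪 θ T) :
    Finite (IsLocalRing.ResidueField T) := by
  have hsurj : Function.Surjective
      (IsLocalRing.ResidueField.map (algebraMap 𝒪 T)) := by
    intro y
    obtain ⟨x, hx⟩ := H.residue_surjective y
    exact ⟨IsLocalRing.residue 𝒪 x, by rw [IsLocalRing.ResidueField.map_residue]; exact hx⟩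
  exact Finite.of_surjective _ hsurj

/-- **S32 from the contracts.** -/
theorem s32_top (hOrd : s19_TorsOrder) (hP : s19_OrderProd) (hS : s19_OrderSub)
    (hQ : s19_OrderQuot) (hH : s19_Hopf) (hfin : s19_TorsFinite) (hSubq : s32_Subq)
    [Finite (IsLocalRing.ResidueField 𝒪)] [CharZero 𝒪]
    (hp : p.Prime) (hp2 : p ≠ 2) (hp𝒪 : (p : 𝒪) ∈ IsLocalRing.maximalIdeal 𝒪) (hpN : ¬ p ∣ N)
    (hpS : p ∈ S) (hNS : ∀ q : ℕ, q.Prime → q ∣ N → q ∈ S)
    (H : CuspForm.HeckeGaloisRepDatum N (↑S : Set ℕ) 𝒪 θ T) :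
    H.ρ.IsFlatAt p := by
  haveI : Fact p.Prime := ⟨hp⟩
  refine ⟨s32_finite_residueField H, fun J hJ => ?_⟩
  obtain ⟨m, r, T₁, i1, i2, i, q, hi, hie, hq, hqe⟩ := hSubq hp hp2 hp𝒪 hpN hpS hNS H J hJ
  letI : DistribMulAction s19_Gal (H.ρ.V ⧸ (J • (⊤ : Submodule T H.ρ.V))) :=
    s32_levelDMA H.ρ J
  haveI : Finite (s19_Tors N p m) := hfin N p m
  have h0 : ∃ H₀, s19_IsOrder p (s19_Tors N p m) H₀ := hOrd N p hpN m
  have hpow : ∃ H', s19_IsOrder p (Fin r → s19_Tors N p m) H' :=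
    s32_orderPow hP hS p (s19_Tors N p m) h0 r
  have h1 : ∃ H₁, s19_IsOrder p T₁ H₁ := hS p (Fin r → s19_Tors N p m) T₁ i hi hie hpow
  haveI : Finite T₁ := Finite.of_injective i hi
  have h2 : ∃ H₂, s19_IsOrder p (H.ρ.V ⧸ (J • (⊤ : Submodule T H.ρ.V))) H₂ :=
    hQ p T₁ _ q hq (fun σ x => hqe σ x) h1
  obtain ⟨H₂, hH₂⟩ := h2
  haveI : Finite (H.ρ.V ⧸ (J • (⊤ : Submodule T H.ρ.V))) := Finite.of_surjective q hq
  obtain ⟨Hf, j1, j2, hfinH, hflat, hcocomm, e, he, hequiv⟩ :=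
    hH p (H.ρ.V ⧸ (J • (⊤ : Submodule T H.ρ.V))) H₂ hH₂
  exact ⟨Hf, j1, j2, hfinH, hflat, hcocomm, e, he, fun σ f g hfg => hequiv σ f g hfg⟩

end Fermat.Agent.Lib.S32
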