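/-
W-A programme (S32), brick [S32-INST] (helper4, prefix `s32i_`):
`theorem s32i_subq : s32_Abs → s32_Subq`.

Instantiation of the abstract subquotient theorem `s32_Abs` exactly as `s33g_ordinaryAt_of_halfAt`
(Lib/S33/GTop.lean) instantiates `s33g_main`: `Λ = T_p J₀(N)`, `A` = the closed Hecke algebra,
`τ₀` = complex conjugation (`ε c = -1`, so `1 - ε c = 2` is a unit for `p ≠ 2`; `det ρ_T(c) = -1`
and `ρ_T(c)² = 1` force `tr ρ_T(c) = 0`).  Then `T₁` := the image of
`F → (J₀(N)[p^m])^r`, `f ↦ ((a f j)_m)_j`, `i` := the inclusion, `q` := `b` of any preimage mod `J`.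
-/
import Fermat.Agent.Lib.S32.Iface
import Fermat.Agent.Lib.S32.IfaceAbs
import Fermat.Agent.Lib.S33.GTop

set_option autoImplicit false
set_option linter.unusedSectionVars false
set_option linter.style.haveILetI false

noncomputable section

namespace Fermat.Agent.Lib.S32

open IsLocalRing ModularCurve CuspForm Fermat.Agent.Lib.S19
open Fermat.Agent.Lib.S29 Fermat.Agent.Lib.S30 Fermat.Agent.Lib.S31 Fermat.Agent.Lib.S33

/-! ### An involution of determinant `-1` on a free module of rank two has trace `0` -/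

theorem s32i_trace_eq_zero {T V : Type*} [CommRing T] [AddCommGroup V] [Module T V]
    (b : Module.Basis (Fin 2) T V) (f : Module.End T V) (hf : f * f = 1)
    (hdet : LinearMap.det f = -1) : LinearMap.trace T V f = 0 := by
  set M := LinearMap.toMatrix b b f with hM
  have hMM : M * M = 1 := by
    rw [hM, ← LinearMap.toMatrix_mul, hf, LinearMap.toMatrix_one]
  have hdetM : M.det = -1 := by rw [hM, LinearMap.det_toMatrix, hdet]
  rw [LinearMap.trace_eq_matrix_trace T b f, ← hM, Matrix.trace_fin_two]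
  rw [Matrix.det_fin_two] at hdetM
  have e1 := congrFun (congrFun hMM 0) 0
  have e2 := congrFun (congrFun hMM 0) 1
  simp only [Matrix.mul_apply, Fin.sum_univ_two, Matrix.one_apply_eq, Matrix.one_apply_ne,
    ne_eq, zero_ne_one, not_false_eq_true, Fin.isValue] at e1 e2
  linear_combination (M 0 0 + M 1 1) * hdetM - M 1 1 * (e1 + hdetM) + M 1 0 * e2

/-! ### Stable subgroups of Galois modules -/

/-- the Galois action on a stable subgroup. -/
@[instance_reducible]
def s32i_subDMA {G M : Type*} [Monoid G] [AddCommGroup M] [DistribMulAction G M]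
    (K : AddSubgroup M) (hK : ∀ (σ : G), ∀ x ∈ K, σ • x ∈ K) : DistribMulAction G ↥K where
  smul σ x := ⟨σ • (x : M), hK σ x x.2⟩
  one_smul x := Subtype.ext (one_smul _ (x : M))
  mul_smul σ τ x := Subtype.ext (mul_smul σ τ (x : M))
  smul_zero σ := Subtype.ext (smul_zero σ)
  smul_add σ x y := Subtype.ext (smul_add σ (x : M) (y : M))

/-! ### The instantiation -/

/-- **[S32-INST]** the abstract subquotient theorem gives `s32_Subq`. -/
theorem s32i_subq (hAbs : s32_Abs) : s32_Subq := by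
  intro p N _ S 𝒪 _ _ _ _ θ T _ _ _ _ _ _ _ _ _ _ hp hp2 hp𝒪 hpN hpS hNS H J hJ
  haveI : Fact p.Prime := ⟨hp⟩
  have hpT : (p : T) ∈ maximalIdeal T := s31e_p_mem p hp𝒪
  -- complex conjugation
  have hε : (((s30y_cycDatum p).ε complexConjugation : ℤ_[p]ˣ) : ℤ_[p]) = -1 := by
    rw [s30y_conj_datum]; rfl
  have hdetc : LinearMap.det (H.ρ.ρ complexConjugation) = -1 := by
    rw [← s33g_piT_eps hpS hNS H hpT, hε, map_neg, map_one, map_neg, map_one]
  have hsq : H.ρ.ρ complexConjugation * H.ρ.ρ complexConjugation = 1 := by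
    rw [← map_mul, complexConjugation_mul_self, map_one]
  have htrc : LinearMap.trace T H.ρ.V (H.ρ.ρ complexConjugation) = 0 :=
    s32i_trace_eq_zero (Module.finBasisOfFinrankEq T H.ρ.V H.ρ.finrank_eq) _ hsq hdetc
  have hunit : IsUnit (1 - (((s30y_cycDatum p).ε complexConjugation : ℤ_[p]ˣ) : ℤ_[p])) := by
    rw [hε, sub_neg_eq_add, one_add_one_eq_two]
    have h2 : ((2 : ℕ) : ℤ_[p]) = 2 := by norm_cast
    rw [← h2, PadicInt.isUnit_iff, PadicInt.norm_natCast_eq_one_iff]
    exact (Nat.coprime_primes hp Nat.prime_two).mpr hp2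
  have hres : LinearMap.trace T H.ρ.V (H.ρ.ρ complexConjugation) - 1 -
      LinearMap.det (H.ρ.ρ complexConjugation) ∈ maximalIdeal T := by
    rw [htrc, hdetc]
    have : (0 : T) - 1 - -1 = 0 := by ring
    rw [this]
    exact Ideal.zero_mem _
  obtain ⟨m, r, F, iF1, iF2, a, b, ha, hb, hsurj, hkey⟩ :=
    hAbs (s33g_actA N p S) (s33g_actA_injective N p S) (s33g_piT hpT H.π) hpT H.ρ
      (s31a_span_rho_eq_top H.ρ H.residual_absIrr) (s30a_rho N p)
      (fun g a w => s33g_hcomm g a w) (s30y_cycDatum p).ε (s33g_tA hpS hNS H)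
      (fun g w => s33g_hCH hpS hNS H g w) (fun g => s33g_piT_tA hpS hNS H hpT g)
      (fun g => s33g_piT_eps hpS hNS H hpT g) complexConjugation hunit hres J hJ
  -- the map to the torsion
  have htors : ∀ (f : F) (j : Fin r), ((a f j : s30a_TJ N p) : ℕ → JZero N) m ∈
      Submodule.torsionBy ℤ (JZero N) ((p : ℤ) ^ m) := by
    intro f j
    rw [Submodule.mem_torsionBy_iff, ← Nat.cast_pow, natCast_zsmul]
    exact s30a_pow_smul (a f j) m
  let φ : F →+ (Fin r → s19_Tors N p m) :=
    { toFun := fun f j => ⟨((a f j : s30a_TJ N p) : ℕ → JZero N) m, htors f j⟩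
      map_zero' := by
        funext j
        apply Subtype.ext
        show ((a 0 j : s30a_TJ N p) : ℕ → JZero N) m = 0
        rw [map_zero]
        rfl
      map_add' := fun f f' => by
        funext j
        apply Subtype.ext
        show ((a (f + f') j : s30a_TJ N p) : ℕ → JZero N) m =
          ((a f j : s30a_TJ N p) : ℕ → JZero N) m + ((a f' j : s30a_TJ N p) : ℕ → JZero N) m
        rw [map_add]
        rfl }
  have hφ : ∀ (f : F) (j : Fin r), ((φ f j : s19_Tors N p m) : JZero N) =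
      ((a f j : s30a_TJ N p) : ℕ → JZero N) m := fun f j => rfl
  have hφG : ∀ (σ : s19_Gal) (f : F), φ (σ • f) = σ • φ f := by
    intro σ f
    funext j
    apply Subtype.ext
    show ((a (σ • f) j : s30a_TJ N p) : ℕ → JZero N) m =
      σ • ((a f j : s30a_TJ N p) : ℕ → JZero N) m
    rw [ha σ f j]
    rfl
  have hK : ∀ (σ : s19_Gal), ∀ x ∈ φ.range, σ • x ∈ φ.range := by
    rintro σ _ ⟨f, rfl⟩
    exact ⟨σ • f, hφG σ f⟩
  -- `b` is well defined modulo `J` on the image
  have hwd : ∀ f f' : F, φ f = φ f' →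
      (Submodule.Quotient.mk (b f) : H.ρ.V ⧸ (J • (⊤ : Submodule T H.ρ.V))) =
        Submodule.Quotient.mk (b f') := by
    intro f f' h
    rw [Submodule.Quotient.eq, ← map_sub]
    apply hkey
    intro j
    apply s30a_exists_pow_smul
    have h1 : ((φ f j : s19_Tors N p m) : JZero N) = ((φ f' j : s19_Tors N p m) : JZero N) := by
      rw [h]
    rw [hφ, hφ] at h1
    rw [map_sub, Pi.sub_apply]
    show ((a f j : s30a_TJ N p) : ℕ → JZero N) m - ((a f' j : s30a_TJ N p) : ℕ → JZero N) m = 0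
    rw [h1, sub_self]
  let q : ↥φ.range →+ H.ρ.V ⧸ (J • (⊤ : Submodule T H.ρ.V)) :=
    AddMonoidHom.mk' (fun x => Submodule.Quotient.mk (b (AddMonoidHom.mem_range.mp x.2).choose))
      (fun x y => by
        have hx := (AddMonoidHom.mem_range.mp x.2).choose_spec
        have hy := (AddMonoidHom.mem_range.mp y.2).choose_spec
        have hxy := (AddMonoidHom.mem_range.mp (x + y).2).choose_spec
        show (Submodule.Quotient.mk (b (AddMonoidHom.mem_range.mp (x + y).2).choose) :
          H.ρ.V ⧸ (J • (⊤ : Submodule T H.ρ.V))) = Submodule.Quotient.mk _ +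
            Submodule.Quotient.mk _
        rw [← Submodule.Quotient.mk_add, ← map_add]
        apply hwd
        rw [hxy, map_add, hx, hy]
        rfl)
  have hq : ∀ f : F, q ⟨φ f, ⟨f, rfl⟩⟩ = Submodule.Quotient.mk (b f) := fun f =>
    hwd _ _ (AddMonoidHom.mem_range.mp (⟨φ f, ⟨f, rfl⟩⟩ : ↥φ.range).2).choose_spec
  letI iK : DistribMulAction s19_Gal ↥φ.range := s32i_subDMA φ.range hK
  refine ⟨m, r, ↥φ.range, inferInstance, iK, φ.range.subtype, q, Subtype.val_injective,
    fun σ x => rfl, ?_, ?_⟩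
  · intro y
    obtain ⟨v, rfl⟩ := Submodule.Quotient.mk_surjective _ y
    obtain ⟨f, hf⟩ := hsurj v
    refine ⟨⟨φ f, ⟨f, rfl⟩⟩, ?_⟩
    rw [hq]
    exact (Submodule.Quotient.eq _).mpr hf
  · intro σ x
    obtain ⟨f, hf⟩ := AddMonoidHom.mem_range.mp x.2
    have hx : x = ⟨φ f, ⟨f, rfl⟩⟩ := Subtype.ext hf.symm
    have h2 : σ • (⟨φ f, ⟨f, rfl⟩⟩ : ↥φ.range) = ⟨φ (σ • f), ⟨σ • f, rfl⟩⟩ :=
      Subtype.ext (hφG σ f).symm
    rw [hx, h2, hq, hq, hb]
    rfl

end Fermat.Agent.Lib.S32
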