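/-
W-A programme (S32): **FINAL ASSEMBLY of S32** (helper5).

`s32_closed`: the frozen statement of S32, all contracts discharged (`s32_final` keeps
`s19m_RRHyp` of the S19 tree as a hypothesis; it is `s19_rr_final`, helper2):
[S19-ORD] by `s19_torsOrder_of` and the closed bricks of `Lib/S19/Final.lean`,
[S32-ABS] `s32a_abs` (helper6), [S32-INST] `s32i_subq` (helper4).
-/
import Fermat.Agent.Lib.S19.Final
import Fermat.Agent.Lib.S32.Inst
import Fermat.Agent.Lib.S32.AAbs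

set_option autoImplicit false
set_option linter.unusedSectionVars false
set_option linter.style.haveILetI false
set_option synthInstance.maxHeartbeats 400000
set_option maxHeartbeats 1600000

noncomputable section

namespace Fermat.Agent.Lib.S32

open Fermat.Agent.Lib.S19

/-- [S19-ORD] from the open contract of the S19 tree. -/
theorem s19_torsOrder_final (hR : s19m_RRHyp) : s19_TorsOrder :=
  s19_torsOrder_of (s19_frames_final hR) s19_order_final s19g_desc s19c_orderSub s19c_orderQuot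
    s19v_level s19_cont_final s19_torsFinite_final
    (fun ℓ _ => Fermat.Agent.Lib.Frobenius.exists_liesOverPrime ℓ Fact.out)

/-- [S32-SUBQ], closed. -/
theorem s32_subq_final : s32_Subq := s32i_subq s32a_abs

variable {p : ℕ} {N : ℕ} [NeZero N] {S : Finset ℕ}
  {𝒪 : Type} [CommRing 𝒪] [IsDomain 𝒪] [IsDiscreteValuationRing 𝒪]
  [IsAdicComplete (IsLocalRing.maximalIdeal 𝒪) 𝒪]
  {θ : CuspForm.heckeAlgebra N 2 (↑S : Set ℕ) →+* IsLocalRing.ResidueField 𝒪}
  {T : Type} [CommRing T] [IsLocalRing T] [IsNoetherianRing T]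
  [IsAdicComplete (IsLocalRing.maximalIdeal T) T] [Algebra 𝒪 T] [IsLocalHom (algebraMap 𝒪 T)]
  [Module.Finite 𝒪 T] [Module.Free 𝒪 T]

/-- **S32 from the open contract.** -/
theorem s32_final (hR : s19m_RRHyp)
    [Finite (IsLocalRing.ResidueField 𝒪)] [CharZero 𝒪]
    (hp : p.Prime) (hp2 : p ≠ 2) (hp𝒪 : (p : 𝒪) ∈ IsLocalRing.maximalIdeal 𝒪) (hpN : ¬ p ∣ N)
    (hpS : p ∈ S) (hNS : ∀ q : ℕ, q.Prime → q ∣ N → q ∈ S)
    (H : CuspForm.HeckeGaloisRepDatum N (↑S : Set ℕ) 𝒪 θ T) :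
    H.ρ.IsFlatAt p :=
  s32_top (s19_torsOrder_final hR) s19c_orderProd s19c_orderSub s19c_orderQuot s19c_hopf_main
    s19_torsFinite_final s32_subq_final hp hp2 hp𝒪 hpN hpS hNS H

/-- **S32**, all contracts discharged. -/
theorem s32_closed
    [Finite (IsLocalRing.ResidueField 𝒪)] [CharZero 𝒪]
    (hp : p.Prime) (hp2 : p ≠ 2) (hp𝒪 : (p : 𝒪) ∈ IsLocalRing.maximalIdeal 𝒪) (hpN : ¬ p ∣ N)
    (hpS : p ∈ S) (hNS : ∀ q : ℕ, q.Prime → q ∣ N → q ∈ S)
    (H : CuspForm.HeckeGaloisRepDatum N (↑S : Set ℕ) 𝒪 θ T) :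
    H.ρ.IsFlatAt p :=
  s32_final s19_rr_final hp hp2 hp𝒪 hpN hpS hNS H

end Fermat.Agent.Lib.S32
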